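/-
Programme T1B, brick F8' HECKE-N, slice S3 GAUSS, item (W3), KBAR WRAP (helper77), part 1.

`A` a valuation subring of `ℚ̄`, `N` a level, `e : FF N →+* ℚ̄((q))` an expansion of the function
field `FF N = ℚ̄·F_N` all of whose nonzero values are Gauss-normalisable (slice S3), so that
`Hecke3.gaussVal A e H` is a valuation subring of `FF N`.

* `eq_of_comap_baseChangeHom_eq` : two valuation subrings of `FF N` with the same restriction to
  `FK N K` for all large number fields `K ⊂ ℚ̄` are equal (`FF N = ⋃_K FK N K`);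
* `mem_comap_gaussVal_iff` : `x ∈ (gaussVal A e H).comap (baseChangeHom N K) ↔
  e (baseChangeHom N K x) ∈ GaussGen8.gaussRing A` (`Iff.rfl`);
* `val_comap_gaussVal_lt_one` : an element whose expansion is `embA a` with `ā = 0` has valuation
  `< 1` in the restricted ring;
* side 1 / side 2' at the finite level, from the Gauss descent
  `hdesc : coeffMap (K → ℚ̄) f ∈ gaussRing A ↔ f ∈ gaussRing (AK A K)` (`f ∈ Frac (AK A K)((q))`):
  `comap_gaussVal_coe_eq_O1`, `comap_gaussVal_fricke_eq_O2` (in `ES/N34/ModelDefs9` vocabulary).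
-/
import Mathlib
import Fermat.Agent.T1B.Hecke3.GaussVal
import Fermat.Agent.RED.PUR.UniqueExt20
import Fermat.Agent.RED.DESC.PlaceExtend27
import Fermat.Agent.ES.N34.ModelDefs9

set_option autoImplicit false
set_option linter.unusedSectionVars false

noncomputable section

open HahnSeries ModularCurve IntermediateField

namespace Fermat.Agent.T1B.GaussW77

open Fermat.Agent.RED.Interface4 Fermat.Agent.RED.PUR.GaussGen8
open Fermat.Agent.RED.DESC.PlaceExtend27 Fermat.Agent.RED.DESC.CoeffDescent1
open Fermat.Agent.ES.N34.FrickeFK8 Fermat.Agent.ES.N34.ModelDefs9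
open Fermat.Agent.T1B.Hecke3

/-! ### `FF N` is the union of its finite levels -/

section Union

variable (N : ℕ)

/-- Every element of `ℚ̄·F_N` comes from `K·F_N` for a number field `K ⊇ K₀`. -/
theorem exists_baseChangeHom_eq (K₀ : IntermediateField ℚ Qbar) [FiniteDimensional ℚ K₀]
    (x : Fbar N) :
    ∃ K : IntermediateField ℚ Qbar, K₀ ≤ K ∧ FiniteDimensional ℚ K ∧
      ∃ x' : FK N K, baseChangeHom N K x' = x := by
  have : Algebra.IsAlgebraic ℚ Qbar := AlgebraicClosure.isAlgebraic ℚ
  obtain ⟨K, hK₀, hfin, x', hx', hx⟩ :=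
    exists_finite_descent (F₀ := modularFunctionFieldFull N) K₀ x.2
  exact ⟨K, hK₀, hfin, ⟨x', hx'⟩, Subtype.ext hx⟩

/-- **Union lemma.**  Two valuation subrings of `FF N` with the same restriction to every large
finite level are equal. -/
theorem eq_of_comap_baseChangeHom_eq (V V' : ValuationSubring (Fbar N))
    (K₀ : IntermediateField ℚ Qbar) [FiniteDimensional ℚ K₀]
    (h : ∀ K : IntermediateField ℚ Qbar, FiniteDimensional ℚ K → K₀ ≤ K →
      V.comap (baseChangeHom N K) = V'.comap (baseChangeHom N K)) : V = V' := by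
  ext x
  obtain ⟨K, hK₀, hfin, x', rfl⟩ := exists_baseChangeHom_eq N K₀ x
  have h1 := h K hfin hK₀
  have h2 : x' ∈ V.comap (baseChangeHom N K) ↔ x' ∈ V'.comap (baseChangeHom N K) := by rw [h1]
  exact h2

end Union

/-! ### Restriction of a Gauss valuation ring to a finite level -/

section Restrict

variable {F : Type*} [Field F] (A : ValuationSubring Qbar) (e : F →+* LaurentSeries Qbar)

/-- The Gauss ring of an expansion is the pull-back of `GaussGen8.gaussRing`. -/
theorem mem_gaussSub_iff_mem_gaussRing (f : F) : f ∈ gaussSub A e ↔ e f ∈ gaussRing A := Iff.rfl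

variable {A e}

theorem mem_comap_gaussVal_iff {F' : Type*} [Field F'] (φ : F' →+* F)
    (H : ∀ f : F, f ≠ 0 → Normalisable A (e f)) (x : F') :
    x ∈ (gaussVal A e H).comap φ ↔ e (φ x) ∈ gaussRing A := Iff.rfl

/-- A nonzero integral series of zero reduction is not a unit of the Gauss ring. -/
theorem inv_embA_not_mem_gaussRing {a : LaurentSeries ↥A} (ha0 : a ≠ 0) (ha : redA A a = 0) :
    (embA A a)⁻¹ ∉ gaussRing A := by
  rintro ⟨b, s, hs, h⟩
  have hea : embA A a ≠ 0 := fun h0 => ha0 (embA_injective A (by rw [h0, map_zero]))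
  have h1 : embA A s = embA A (a * b) := by
    rw [map_mul]
    show embK A s = embK A a * embK A b
    rw [← h]
    show embK A s = embA A a * ((embA A a)⁻¹ * embK A s)
    rw [← mul_assoc, mul_inv_cancel₀ hea, one_mul]
  have h2 : s = a * b := embA_injective A h1
  apply hs
  show redA A s = 0
  rw [h2, map_mul, ha, zero_mul]

/-- An element whose expansion is an integral series of zero reduction has valuation `< 1`. -/
theorem val_gaussVal_lt_one (H : ∀ f : F, f ≠ 0 → Normalisable A (e f)) {x : F}
    {a : LaurentSeries ↥A} (hx : e x = embA A a) (ha : redA A a = 0) :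
    (gaussVal A e H).valuation x < 1 := by
  rw [Fermat.Agent.RED.PUR.UniqueExt20.val_lt_one_iff (gaussVal A e H)]
  by_cases hx0 : x = 0
  · exact Or.inl hx0
  right
  have ha0 : a ≠ 0 := by
    rintro rfl
    rw [map_zero] at hx
    exact hx0 ((map_eq_zero_iff e e.injective).mp hx)
  intro hmem
  have h1 : e x⁻¹ ∈ gaussRing A := hmem
  rw [map_inv₀, hx] at h1
  exact inv_embA_not_mem_gaussRing ha0 ha h1

end Restrict

end Fermat.Agent.T1B.GaussW77
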