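/-
Programme T1B, brick F8' HECKE-N, slice S3 GAUSS, item (W3), KBAR WRAP (helper77), part 2:
THE FINITE LEVEL.

`A` a valuation subring of `ℚ̄`, `K ⊂ ℚ̄` with `AK A K` having a uniformiser `π`; bad level
`N = M' * q` (`ES/N34/ModelDefs9` vocabulary: `alpha`, `beta`, `tN`, `yN`, `O1`, `O2`).

* `comap_gaussVal_coe_eq_O1`    : the restriction to `FK N K` of the Gauss valuation ring of the
  expansion at `∞` is `O1`;
* `comap_gaussVal_fricke_eq_O2` : the restriction of the Gauss valuation ring of the Fricke expansion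
  `coe ∘ W_N` is `O2`;
* for an expansion `W : FF N →+* ℚ̄((q))` with `W (α f) = f(q^q)`, `W (β h) = h`, `W c = c`
  (the Atkin–Lehner expansion `W_q`): `W_baseChangeHom_of_mem_adjoin` (on `K(t_N)`, `W` is
  `f ↦ f(q^q)`), `comap_comap_gaussVal_W_eq` (same restriction to `K(t_N)` as `O1`), and
  `val_test_lt_one` (`v (t_N − y_N^q) < 1`: the Frobenius congruence `t(q^q) ≡ t(q)^q`).
-/
import Mathlib
import Fermat.Agent.T1B.GaussW77.Restrict
import Fermat.Agent.T1B.GaussW95.Descent
import Fermat.Agent.ES.KRON.KronCong24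

set_option autoImplicit false
set_option linter.unusedSectionVars false

noncomputable section

open HahnSeries ModularCurve IntermediateField

namespace Fermat.Agent.T1B.GaussW77

open Fermat.Agent.RED.Interface4 Fermat.Agent.RED.PUR.GaussGen8
open Fermat.Agent.RED.DESC.PlaceExtend27 Fermat.Agent.RED.DESC.CoeffDescent1
open Fermat.Agent.RED.BASE.EtaQuot12
open Fermat.Agent.ES.N34.FrickeFK8 Fermat.Agent.ES.N34.ModelDefs9
open Fermat.Agent.T1B.Hecke3 Fermat.Agent.T1B.GaussW95

variable {A : ValuationSubring Qbar} {K : IntermediateField ℚ Qbar} (M' q : ℕ) [NeZero M']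
  [NeZero q] {π : ↥(AK A K)}

/-! ### Sides 1 and 2' -/

/-- The expansion at `∞` of `FF N`. -/
abbrev coeHom (N : ℕ) : Fbar N →+* LaurentSeries Qbar := (Fbar N).val.toRingHom

/-- The Fricke expansion `coe ∘ W_N` of `FF N`. -/
abbrev frickeHom (N : ℕ) [NeZero N] : Fbar N →+* LaurentSeries Qbar :=
  (coeHom N).comp (frickeBar N).toRingHom

/-- **Side 1 at the finite level**: the Gauss valuation ring of the expansion at `∞` restricts to
`O1`. -/
theorem comap_gaussVal_coe_eq_O1 (hπ : IsUnif (AK A K) π)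
    (hE : FK (M' * q) K ≤ fracField (AK A K))
    (H : ∀ f : Fbar (M' * q), f ≠ 0 → Normalisable A (coeHom (M' * q) f)) :
    (gaussVal A (coeHom (M' * q)) H).comap (baseChangeHom (M' * q) K) = O1 M' q hπ hE := by
  ext x
  rw [mem_comap_gaussVal_iff, mem_O1_iff]
  show coeffMap (algebraMap K Qbar) (x : LaurentSeries K) ∈ gaussRing A ↔ _
  exact coeffMap_mem_gaussRing_iff (φ := algebraMap K Qbar) (A := A) hπ (hE x.2)

/-- **Side 2' at the finite level**: the Gauss valuation ring of the Fricke expansion restricts to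
`O2`. -/
theorem comap_gaussVal_fricke_eq_O2 (hπ : IsUnif (AK A K) π)
    (hE : FK (M' * q) K ≤ fracField (AK A K))
    (H : ∀ f : Fbar (M' * q), f ≠ 0 → Normalisable A (frickeHom (M' * q) f)) :
    (gaussVal A (frickeHom (M' * q)) H).comap (baseChangeHom (M' * q) K) = O2 M' q hπ hE := by
  ext x
  rw [mem_comap_gaussVal_iff, mem_O2_iff_wN_mem_O1, mem_O1_iff]
  show ((frickeBar (M' * q) (baseChangeHom (M' * q) K x) : Fbar (M' * q)) : LaurentSeries Qbar) ∈
    gaussRing A ↔ _
  rw [← baseChangeHom_frickeFK, coe_baseChangeHom]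
  exact coeffMap_mem_gaussRing_iff (φ := algebraMap K Qbar) (A := A) hπ
    (hE (frickeFK (M' * q) K x).2)

/-! ### Base change and the degeneracy maps -/

theorem baseChangeHom_alpha (x : FK M' K) :
    baseChangeHom (M' * q) K (alpha K M' q x) =
      heckeAlphaBar Qbar M' q (baseChangeHom M' K x) := by
  apply Subtype.ext
  rw [coe_baseChangeHom, coe_alpha, coe_heckeAlphaBar, coe_baseChangeHom]

theorem baseChangeHom_beta (x : FK M' K) :
    baseChangeHom (M' * q) K (beta K M' q x) =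
      heckeBetaBar Qbar M' q (baseChangeHom M' K x) := by
  apply Subtype.ext
  rw [coe_baseChangeHom, coe_beta, coe_heckeBetaBar, coe_baseChangeHom,
    Fermat.Agent.X0.CuspGood.coeffMap_qExpand]

/-! ### An Atkin–Lehner type expansion `W` -/

section W

variable (W : Fbar (M' * q) →+* LaurentSeries Qbar)
  (hWα : ∀ f : Fbar M', W (heckeAlphaBar Qbar M' q f) = qExpand Qbar q (f : LaurentSeries Qbar))
  (hWβ : ∀ h : Fbar M', W (heckeBetaBar Qbar M' q h) = (h : LaurentSeries Qbar))
  (hWc : ∀ c : Qbar, W (algebraMap Qbar (Fbar (M' * q)) c) = HahnSeries.C c)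
variable {n e : ℕ} [NeZero n]

include hWα in
theorem W_baseChangeHom_tN (ht : tq (↥K) n e ∈ FK M' K) :
    W (baseChangeHom (M' * q) K (tN q ht)) = qExpand Qbar q (tq Qbar n e) := by
  rw [tN, baseChangeHom_alpha, hWα, coe_baseChangeHom, coe_tM, coeffMap_tq]

include hWβ in
theorem W_baseChangeHom_yN (ht : tq (↥K) n e ∈ FK M' K) :
    W (baseChangeHom (M' * q) K (yN q ht)) = tq Qbar n e := by
  rw [yN, baseChangeHom_beta, hWβ, coe_baseChangeHom, coe_tM, coeffMap_tq]

/-- `x ↦ W (x ⊗ ℚ̄)` on `FK N K`. -/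
def psiW : FK (M' * q) K →+* LaurentSeries Qbar := W.comp (baseChangeHom (M' * q) K)

/-- `x ↦ x(q^q) ⊗ ℚ̄` on `FK N K`. -/
def psiV : FK (M' * q) K →+* LaurentSeries Qbar :=
  (coeffMap (algebraMap K Qbar)).comp ((qExpand K q).comp (FK (M' * q) K).val.toRingHom)

include hWα hWc in
/-- **On `K(t_N)` the expansion `W` is `f ↦ f(q^q)`.** -/
theorem W_baseChangeHom_of_mem_adjoin (ht : tq (↥K) n e ∈ FK M' K) {g : FK (M' * q) K}
    (hg : g ∈ K⟮tN q ht⟯) :
    W (baseChangeHom (M' * q) K g) =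
      coeffMap (algebraMap K Qbar) (qExpand K q (g : LaurentSeries K)) := by
  have hle : (K⟮tN q ht⟯).toSubfield ≤ (psiW M' q W).eqLocusField (psiV M' q) := by
    apply adjoin_le_subfield
    · rintro _ ⟨c, rfl⟩
      show W (baseChangeHom (M' * q) K (algebraMap K (FK (M' * q) K) c)) =
        coeffMap (algebraMap K Qbar)
          (qExpand K q ((algebraMap K (FK (M' * q) K) c : FK (M' * q) K) : LaurentSeries K))
      rw [baseChangeHom_algebraMap, hWc]
      have h1 : ((algebraMap K (FK (M' * q) K) c : FK (M' * q) K) : LaurentSeries K) =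
          HahnSeries.C c := by
        show algebraMap K (LaurentSeries K) c = _
        exact algebraMap_eq_C c
      rw [h1, qExpand_C, Fermat.Agent.RED.PUR.GaussGen8.coeffMap_C]
      rfl
    · rintro _ rfl
      show W (baseChangeHom (M' * q) K (tN q ht)) =
        coeffMap (algebraMap K Qbar) (qExpand K q ((tN q ht : FK (M' * q) K) : LaurentSeries K))
      rw [W_baseChangeHom_tN M' q W hWα ht, coe_tN, Fermat.Agent.X0.CuspGood.coeffMap_qExpand,
        coeffMap_tq]
  exact hle hg

/-- `f ↦ f(q^m)` preserves `Frac O((q))`. -/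
theorem qExpand_mem_fracField {k : Type*} [Field k] (O : ValuationSubring k) (m : ℕ) [NeZero m]
    {f : LaurentSeries k} (hf : f ∈ fracField O) : qExpand k m f ∈ fracField O := by
  obtain ⟨a, b, hb, h⟩ := hf
  refine ⟨qExpand ↥O m a, qExpand ↥O m b, ?_, ?_⟩
  · intro h0
    exact hb (qExpand_injective (R := ↥O) (N := m) (by rw [h0, map_zero]))
  · unfold embK
    rw [Fermat.Agent.X0.CuspGood.coeffMap_qExpand, Fermat.Agent.X0.CuspGood.coeffMap_qExpand,
      ← map_mul]
    congr 1

include hWα hWc in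
/-- **The restriction to `K(t_N)`** of the Gauss valuation ring of `W` is that of `O1`. -/
theorem comap_comap_gaussVal_W_eq (hπ : IsUnif (AK A K) π)
    (hE : FK (M' * q) K ≤ fracField (AK A K)) (ht : tq (↥K) n e ∈ FK M' K)
    (H : ∀ f : Fbar (M' * q), f ≠ 0 → Normalisable A (W f)) :
    ((gaussVal A W H).comap (baseChangeHom (M' * q) K)).comap
        (algebraMap ↥(K⟮tN q ht⟯) (FK (M' * q) K)) =
      (O1 M' q hπ hE).comap (algebraMap ↥(K⟮tN q ht⟯) (FK (M' * q) K)) := by
  ext a
  have ha : algebraMap ↥(K⟮tN q ht⟯) (FK (M' * q) K) a ∈ K⟮tN q ht⟯ := a.2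
  show W (baseChangeHom (M' * q) K (algebraMap ↥(K⟮tN q ht⟯) (FK (M' * q) K) a)) ∈ gaussRing A ↔
    ((algebraMap ↥(K⟮tN q ht⟯) (FK (M' * q) K) a : FK (M' * q) K) : LaurentSeries K) ∈
      gaussRing (AK A K)
  rw [W_baseChangeHom_of_mem_adjoin M' q W hWα hWc ht ha]
  have hfr := hE (algebraMap ↥(K⟮tN q ht⟯) (FK (M' * q) K) a).2
  rw [coeffMap_mem_gaussRing_iff (φ := algebraMap K Qbar) (A := A) hπ
    (qExpand_mem_fracField (AK A K) q hfr)]
  exact qExpand_mem_gaussRing_iff hπ q hfr

include hWα hWβ in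
/-- **The test element**: `v (t_N − y_N^q) < 1` in the restriction of the Gauss valuation ring of
`W` (Frobenius congruence `t(q^q) ≡ t(q)^q` for the integral Hauptmodul). -/
theorem val_test_lt_one [hq : Fact q.Prime] [CharP (Kap A) q] (ht : tq (↥K) n e ∈ FK M' K)
    (H : ∀ f : Fbar (M' * q), f ≠ 0 → Normalisable A (W f)) :
    ((gaussVal A W H).comap (baseChangeHom (M' * q) K)).valuation
      (tN q ht - (yN q ht) ^ q) < 1 := by
  rw [Fermat.Agent.RED.PUR.UniqueExt20.val_lt_one_iff]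
  by_cases h0 : tN q ht - (yN q ht) ^ q = 0
  · exact Or.inl h0
  right
  intro hmem
  have h1 : (baseChangeHom (M' * q) K (tN q ht - (yN q ht) ^ q)⁻¹) ∈ gaussVal A W H := hmem
  rw [map_inv₀] at h1
  have hv : (gaussVal A W H).valuation
      (baseChangeHom (M' * q) K (tN q ht - (yN q ht) ^ q)) < 1 := by
    apply val_gaussVal_lt_one H (a := qExpand ↥A q (tq ↥A n e) - (tq ↥A n e) ^ q)
    · rw [map_sub, map_pow, map_sub, map_pow, W_baseChangeHom_tN M' q W hWα ht,
        W_baseChangeHom_yN M' q W hWβ ht, map_sub, map_pow,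
        Fermat.Agent.X0.CuspGood.coeffMap_qExpand, coeffMap_tq]
    · rw [map_sub, map_pow, Fermat.Agent.X0.CuspGood.coeffMap_qExpand, coeffMap_tq,
        Fermat.Agent.ES.KRON.KronCong24.pow_char q, coeffMap_tq, sub_self]
  rw [Fermat.Agent.RED.PUR.UniqueExt20.val_lt_one_iff] at hv
  rcases hv with hv | hv
  · exact h0 ((map_eq_zero_iff _ (baseChangeHom (M' * q) K).injective).mp hv)
  · exact hv h1

end W

end Fermat.Agent.T1B.GaussW77
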