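/-
Programme T1B, brick F8' HECKE-N, slice S3 GAUSS, item (W3), KBAR WRAP (helper77), part 3: MAIN.

`N = M' * q`, `q` prime, `q ∤ M'`, `A` a valuation subring of `ℚ̄` over `q`, `(n, e)` a base pair
with `n ∣ M'` (`(4, 8)` for `4 ∣ M'`, `(9, 3)` for `9 ∣ M'`).  For ANY expansion
`W : FF N →+* ℚ̄((q))` with `W (α f) = f(q^q)`, `W (β h) = h`, `W c = c`
(the Atkin–Lehner expansion `W_q` of `ALP90/ALP95`):

  **`gaussVal A W H = gaussVal A (coe ∘ frickeBar N) H'`**   (valuation subrings of `FF N`),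

i.e. the pull-back of the Gauss valuation along `W_q` is the SECOND valuation ring `O2` of the
`ES/N34` nodal model (`= Gauss ∘ coe ∘ w_N`), pulled to `ℚ̄`.  Finite-level form:
`comap_gaussVal_W_eq_O2 : (gaussVal A W H).comap (baseChangeHom N K) = ModelDefs9.O2 M' q hπ hE`.

Proof: finite level = helper95's `GaussW95/Core` (the two extensions `O1`, `O2` of the Gauss valuation
of `K(t_N)`, and the test `v (t_N − y_N^q) < 1` excluding `O1`) fed by `GaussW77/Finite`;
`FF N = ⋃_K FK N K` (`GaussW77/Restrict`).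
-/
import Mathlib
import Fermat.Agent.T1B.GaussW77.Finite
import Fermat.Agent.ES.N34.GaussVTwoInst25
import Fermat.Agent.ES.KRON.KronInst10
import Fermat.Agent.RED.ModelFinal4

set_option autoImplicit false
set_option linter.unusedSectionVars false
set_option linter.style.haveILetI false

noncomputable section

open HahnSeries ModularCurve IntermediateField

namespace Fermat.Agent.T1B.GaussW77

open Fermat.Agent.RED.Interface4 Fermat.Agent.RED.PUR.GaussGen8
open Fermat.Agent.RED.DESC.PlaceExtend27 Fermat.Agent.RED.DESC.NumberFieldDVR27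
open Fermat.Agent.RED.BASE.EtaQuot12 Fermat.Agent.RED.ModelTargets4
open Fermat.Agent.ES.N34.FrickeFK8 Fermat.Agent.ES.N34.ModelDefs9
open Fermat.Agent.T1B.Hecke3

variable {A : ValuationSubring Qbar} (M' q : ℕ) [NeZero M'] [NeZero q]

/-- The finite-level core, as a hypothesis (to be discharged by `GaussW95/Core`). -/
def CoreAt (A : ValuationSubring Qbar) (K : IntermediateField ℚ Qbar) (M' q : ℕ) [NeZero M']
    [NeZero q] (n e : ℕ) [NeZero n] : Prop :=
  ∀ (π : ↥(AK A K)) (hπ : IsUnif (AK A K) π) (hE : FK (M' * q) K ≤ fracField (AK A K))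
    (ht : tq (↥K) n e ∈ FK M' K) (V : ValuationSubring (FK (M' * q) K)),
    V.comap (algebraMap ↥(K⟮tN q ht⟯) (FK (M' * q) K)) =
        (O1 M' q hπ hE).comap (algebraMap ↥(K⟮tN q ht⟯) (FK (M' * q) K)) →
      V.valuation (tN q ht - (yN q ht) ^ q) < 1 → V = O2 M' q hπ hE

section W

variable (W : Fbar (M' * q) →+* LaurentSeries Qbar)
  (hWα : ∀ f : Fbar M', W (heckeAlphaBar Qbar M' q f) = qExpand Qbar q (f : LaurentSeries Qbar))
  (hWβ : ∀ h : Fbar M', W (heckeBetaBar Qbar M' q h) = (h : LaurentSeries Qbar))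
  (hWc : ∀ c : Qbar, W (algebraMap Qbar (Fbar (M' * q)) c) = HahnSeries.C c)
variable {n e : ℕ} [NeZero n]

include hWα hWβ hWc in
/-- **(W3) at the finite level**: the restriction to `FK N K` of the Gauss valuation ring of `W`
is `O2`. -/
theorem comap_gaussVal_W_eq_O2_of_core {K : IntermediateField ℚ Qbar} (hcore : CoreAt A K M' q n e)
    [Fact q.Prime] [CharP (Kap A) q] {π : ↥(AK A K)} (hπ : IsUnif (AK A K) π)
    (hE : FK (M' * q) K ≤ fracField (AK A K)) (ht : tq (↥K) n e ∈ FK M' K)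
    (H : ∀ f : Fbar (M' * q), f ≠ 0 → Normalisable A (W f)) :
    (gaussVal A W H).comap (baseChangeHom (M' * q) K) = O2 M' q hπ hE :=
  hcore π hπ hE ht _ (comap_comap_gaussVal_W_eq M' q W hWα hWc hπ hE ht H)
    (val_test_lt_one M' q W hWα hWβ ht H)

include hWα hWβ hWc in
/-- **(W3) over `ℚ̄`**, from the finite-level core for all large `K`. -/
theorem gaussVal_W_eq_gaussVal_fricke_of_core (hq : q.Prime) (hA : A.LiesOverPrime q)
    (hT : TTarget n e M')
    (hcore : ∃ K₀ : IntermediateField ℚ Qbar, FiniteDimensional ℚ K₀ ∧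
      ∀ K : IntermediateField ℚ Qbar, FiniteDimensional ℚ K → K₀ ≤ K → CoreAt A K M' q n e)
    (H : ∀ f : Fbar (M' * q), f ≠ 0 → Normalisable A (W f))
    (H' : ∀ f : Fbar (M' * q), f ≠ 0 → Normalisable A (frickeHom (M' * q) f)) :
    gaussVal A W H = gaussVal A (frickeHom (M' * q)) H' := by
  obtain ⟨K₁, hK₁fin, hK₁⟩ := hT
  obtain ⟨K₂, hK₂fin, hK₂⟩ := hcore
  haveI := hK₁fin
  haveI := hK₂fin
  haveI : Fact q.Prime := ⟨hq⟩
  haveI : CharP (Kap A) q := Fermat.Agent.ES.KRON.KronInst10.charP_residueField A hq hA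
  apply eq_of_comap_baseChangeHom_eq (M' * q) _ _ (K₁ ⊔ K₂)
  intro K hfin hle
  haveI := hfin
  have ht := hK₁ K hfin (le_sup_left.trans hle)
  have hc := hK₂ K hfin (le_sup_right.trans hle)
  haveI : IsDiscreteValuationRing ↥(AK A K) := isDiscreteValuationRing_AK A K hq.ne_zero hA
  obtain ⟨ϖ, hϖ⟩ := IsDiscreteValuationRing.exists_irreducible ↥(AK A K)
  have hu : IsUnif (AK A K) ϖ := isUnif_of_irreducible (AK A K) hϖ
  have hE : FK (M' * q) K ≤ fracField (AK A K) :=
    Fermat.Agent.RED.PUR.GaussBridge10.FK_le_fracField A K (M' * q)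
  rw [comap_gaussVal_W_eq_O2_of_core M' q W hWα hWβ hWc hc hu hE ht H,
    comap_gaussVal_fricke_eq_O2 M' q hu hE H']

end W

end Fermat.Agent.T1B.GaussW77
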