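/-
Programme T1B, brick F8' HECKE-N, slice S3 GAUSS, item (W3), KBAR WRAP (helper77), part 4:
**(W3) for the Atkin–Lehner expansion `W_p`** — the finite-level core of helper95
(`GaussW95/Core.eq_O2_of_test`) plugged into `GaussW77/Main`.

`N = M' * p`, `p` prime, `p ∤ M'`, `A` a valuation subring of `ℚ̄` over `p`, `(n, e)` a base pair
(`BaseHyp n e`: `(4, 8)` or `(9, 3)`) with `n ∣ M'`:

* `gaussVal_W_eq_gaussVal_fricke` : for every expansion `W` with `W (α f) = f(q^p)`, `W (β h) = h`,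
  `W c = c`:  `gaussVal A W H = gaussVal A (coe ∘ frickeBar N) H'`;
* `comap_gaussVal_W_eq_O2` : finite-level form, `(gaussVal A W H).comap (baseChangeHom N K) =
  ModelDefs9.O2 M' p hπ hE` for every number field `K ⊂ ℚ̄` with `t ∈ FK M' K`, `j ∈ K(t)`;
* `gaussVal_Wp_eq` : the headline for `ALP90.AL1.Wp` (= `ALP95.Wp`) in helper3's literal shape
  `gaussVal A (Wp M' p hp hpM) H2 = gaussVal A ((iotaHom N).comp (frickeBar N)) H2'`;
  `gaussVal_Wp_eq'` : the same with the canonical normalisability proofs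
  (`normalisable_Wp`, `normalisable_frickeBar`) filled in;
* `comap_gaussVal_Wp_eq_O2`, `comap_gaussVal_iota_eq_O1` : the two sides at the finite level.
-/
import Mathlib
import Fermat.Agent.T1B.GaussW77.Main
import Fermat.Agent.T1B.GaussW95.Core
import Fermat.Agent.T1B.ALP95.Bridge
import Fermat.Agent.T1B.Hecke3.DeltaX0

set_option autoImplicit false
set_option linter.unusedSectionVars false
set_option linter.style.haveILetI false

noncomputable section

open HahnSeries ModularCurve IntermediateField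

namespace Fermat.Agent.T1B.GaussW77

open Fermat.Agent.RED.Interface4 Fermat.Agent.RED.PUR.GaussGen8
open Fermat.Agent.RED.DESC.PlaceExtend27 Fermat.Agent.RED.DESC.NumberFieldDVR27
open Fermat.Agent.RED.BASE.EtaQuot12 Fermat.Agent.RED.BASE.Hauptmodul12
open Fermat.Agent.RED.ModelTargets4
open Fermat.Agent.ES.N34.FrickeFK8 Fermat.Agent.ES.N34.ModelDefs9
open Fermat.Agent.T1B.Hecke3

variable {A : ValuationSubring Qbar} (M' q : ℕ) [NeZero M'] [NeZero q] {n e : ℕ} [NeZero n]

/-- The finite-level core (helper95's `eq_O2_of_test`) at a number field `K` with `j ∈ K(t)`. -/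
theorem coreAt_of_core (hq : q.Prime) (hqM : ¬ q ∣ M') (hA : A.LiesOverPrime q)
    (K : IntermediateField ℚ Qbar) [FiniteDimensional ℚ K]
    (hjt : jqModC (↥K) ∈ IntermediateField.adjoin (↥K) {tq (↥K) n e}) :
    CoreAt A K M' q n e := by
  intro π hπ hE ht V hcomap htest
  haveI : Fact q.Prime := ⟨hq⟩
  haveI : IsDiscreteValuationRing ↥(AK A K) := isDiscreteValuationRing_AK A K hq.ne_zero hA
  haveI : CharP (Res (AK A K)) q := charP_residueField_AK A K hq hA
  have hirr : Irreducible π :=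
    (IsDiscreteValuationRing.irreducible_iff_uniformizer π).mpr hπ.max_eq
  exact Fermat.Agent.T1B.GaussW95.eq_O2_of_test M' q hirr hE hqM ht hjt V hcomap htest

section W

variable (W : Fbar (M' * q) →+* LaurentSeries Qbar)
  (hWα : ∀ f : Fbar M', W (heckeAlphaBar Qbar M' q f) = qExpand Qbar q (f : LaurentSeries Qbar))
  (hWβ : ∀ h : Fbar M', W (heckeBetaBar Qbar M' q h) = (h : LaurentSeries Qbar))
  (hWc : ∀ c : Qbar, W (algebraMap Qbar (Fbar (M' * q)) c) = HahnSeries.C c)

include hWα hWβ hWc in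
/-- **(W3), finite level**: for a number field `K ⊂ ℚ̄` with `t ∈ FK M' K` and `j ∈ K(t)`, the
restriction to `FK N K` of the Gauss valuation ring of `W` is the second valuation ring `O2` of the
`ES/N34` nodal model. -/
theorem comap_gaussVal_W_eq_O2 (hq : q.Prime) (hqM : ¬ q ∣ M') (hA : A.LiesOverPrime q)
    (K : IntermediateField ℚ Qbar) [FiniteDimensional ℚ K] (ht : tq (↥K) n e ∈ FK M' K)
    (hjt : jqModC (↥K) ∈ IntermediateField.adjoin (↥K) {tq (↥K) n e})
    {π : ↥(AK A K)} (hπ : IsUnif (AK A K) π) (hE : FK (M' * q) K ≤ fracField (AK A K))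
    (H : ∀ f : Fbar (M' * q), f ≠ 0 → Normalisable A (W f)) :
    (gaussVal A W H).comap (baseChangeHom (M' * q) K) = O2 M' q hπ hE := by
  haveI : Fact q.Prime := ⟨hq⟩
  haveI : CharP (Kap A) q := Fermat.Agent.ES.KRON.KronInst10.charP_residueField A hq hA
  exact comap_gaussVal_W_eq_O2_of_core M' q W hWα hWβ hWc
    (coreAt_of_core M' q hq hqM hA K hjt) hπ hE ht H

include hWα hWβ hWc in
/-- **(W3) over `ℚ̄`**: the pull-back of the Gauss valuation along `W` is the Gauss valuation ring of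
the Fricke expansion `coe ∘ w_N`, i.e. the second valuation ring `O2` pulled to `ℚ̄`. -/
theorem gaussVal_W_eq_gaussVal_fricke (hq : q.Prime) (hqM : ¬ q ∣ M') (hA : A.LiesOverPrime q)
    (hb : BaseHyp n e) (hnM : n ∣ M')
    (H : ∀ f : Fbar (M' * q), f ≠ 0 → Normalisable A (W f))
    (H' : ∀ f : Fbar (M' * q), f ≠ 0 → Normalisable A (frickeHom (M' * q) f)) :
    gaussVal A W H = gaussVal A (frickeHom (M' * q)) H' := by
  have hT : TTarget n e M' := Fermat.Agent.RED.ModelFinal4.tTarget M' (tMem_of_dvd hb hnM)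
  obtain ⟨K₂, hK₂fin, hK₂⟩ := Fermat.Agent.RED.ModelFinal4.jTarget (tGenBase' hb)
  refine gaussVal_W_eq_gaussVal_fricke_of_core M' q W hWα hWβ hWc hq hA hT
    ⟨K₂, hK₂fin, fun K hfin hle => ?_⟩ H H'
  haveI := hfin
  exact coreAt_of_core M' q hq hqM hA K (hK₂ K hfin hle)

end W

/-! ### The headline for `W_p` -/

section Wp

open Fermat.Agent.T1B.ALP90.AL1

variable (M' p : ℕ) [NeZero M'] [NeZero p] (hp : p.Prime) (hpM : ¬ p ∣ M')

/-- **(W3)** in helper3's literal shape: `gaussVal A W_p = gaussVal A (ι ∘ w_N)` on `FF (M' p)`. -/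
theorem gaussVal_Wp_eq (hA : A.LiesOverPrime p) (hb : BaseHyp n e) (hnM : n ∣ M')
    (H2 : ∀ f : Fbar (M' * p), f ≠ 0 → Normalisable A (Wp M' p hp hpM f))
    (H2' : ∀ f : Fbar (M' * p), f ≠ 0 →
      Normalisable A (((iotaHom (M' * p)).comp (frickeBar (M' * p)).toRingHom) f)) :
    gaussVal A (Wp M' p hp hpM) H2 =
      gaussVal A ((iotaHom (M' * p)).comp (frickeBar (M' * p)).toRingHom) H2' :=
  gaussVal_W_eq_gaussVal_fricke M' p (Wp M' p hp hpM) (Wp_alpha M' p hp hpM)
    (Wp_beta M' p hp hpM) (Wp_const M' p hp hpM) hp hpM hA hb hnM H2 H2'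

/-- Normalisability on side 2 (`W_p`), all nonzero functions. -/
theorem normalisable_Wp_all (A : ValuationSubring Qbar) (f : Fbar (M' * p)) (h0 : f ≠ 0) :
    Normalisable A (Wp M' p hp hpM f) :=
  Fermat.Agent.T1B.ALP95.Bridge.normalisable_Wp M' p hp hpM A f h0

/-- Normalisability of the Fricke expansion, all nonzero functions. -/
theorem normalisable_fricke_all (A : ValuationSubring Qbar) (N : ℕ) [NeZero N] (f : Fbar N)
    (h0 : f ≠ 0) : Normalisable A (((iotaHom N).comp (frickeBar N).toRingHom) f) :=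
  Fermat.Agent.T1B.Gauss95.normalisable_frickeBar A N f h0

/-- Normalisability of the expansion at `∞`, all nonzero functions. -/
theorem normalisable_iota_all (A : ValuationSubring Qbar) (N : ℕ) [NeZero N] (f : Fbar N)
    (h0 : f ≠ 0) : Normalisable A (iotaHom N f) :=
  Fermat.Agent.T1B.Gauss95.normalisable_coe A N f h0

/-- **(W3)**, closed form (canonical normalisability proofs). -/
theorem gaussVal_Wp_eq' (hA : A.LiesOverPrime p) (hb : BaseHyp n e) (hnM : n ∣ M') :
    gaussVal A (Wp M' p hp hpM) (normalisable_Wp_all M' p hp hpM A) =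
      gaussVal A ((iotaHom (M' * p)).comp (frickeBar (M' * p)).toRingHom)
        (normalisable_fricke_all A (M' * p)) :=
  gaussVal_Wp_eq M' p hp hpM hA hb hnM _ _

/-- **Side 2 at the finite level**: `O_2 := gaussVal A W_p` restricts to `ModelDefs9.O2`. -/
theorem comap_gaussVal_Wp_eq_O2 (hA : A.LiesOverPrime p)
    (K : IntermediateField ℚ Qbar) [FiniteDimensional ℚ K] (ht : tq (↥K) n e ∈ FK M' K)
    (hjt : jqModC (↥K) ∈ IntermediateField.adjoin (↥K) {tq (↥K) n e})
    {π : ↥(AK A K)} (hπ : IsUnif (AK A K) π) (hE : FK (M' * p) K ≤ fracField (AK A K))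
    (H2 : ∀ f : Fbar (M' * p), f ≠ 0 → Normalisable A (Wp M' p hp hpM f)) :
    (gaussVal A (Wp M' p hp hpM) H2).comap (baseChangeHom (M' * p) K) = O2 M' p hπ hE :=
  comap_gaussVal_W_eq_O2 M' p (Wp M' p hp hpM) (Wp_alpha M' p hp hpM)
    (Wp_beta M' p hp hpM) (Wp_const M' p hp hpM) hp hpM hA K ht hjt hπ hE H2

/-- **Side 1 at the finite level**: `O_1 := gaussVal A ι` restricts to `ModelDefs9.O1`. -/
theorem comap_gaussVal_iota_eq_O1 (K : IntermediateField ℚ Qbar) {π : ↥(AK A K)}
    (hπ : IsUnif (AK A K) π) (hE : FK (M' * p) K ≤ fracField (AK A K))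
    (H1 : ∀ f : Fbar (M' * p), f ≠ 0 → Normalisable A (iotaHom (M' * p) f)) :
    (gaussVal A (iotaHom (M' * p)) H1).comap (baseChangeHom (M' * p) K) = O1 M' p hπ hE :=
  comap_gaussVal_coe_eq_O1 M' p hπ hE H1

end Wp

end Fermat.Agent.T1B.GaussW77
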